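import Fermat.Agent.TWHyp.Residual
import Fermat.Agent.ECReduction.Bijective
import Fermat.Agent.ECFrobenius.Main
import Fermat.Agent.Multiplicative.Galois
import Fermat.Agent.LevelRaisingPrime.Main
import Fermat.Agent.Oddness.FrobeniusDet

/-!
# The mod `p` representation of a semistable curve satisfies the Taylor–Wiles hypotheses

For a semistable integral Weierstrass model the mod `p` representation has cyclotomic determinant
and unipotent inertia away from `p`; if it is irreducible it therefore satisfies `IsTWResidual`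
(`isTWResidual_residualRep`).
-/

set_option autoImplicit false

noncomputable section

open scoped Classical
open scoped WeierstrassCurve.Affine
open WeierstrassCurve WeierstrassCurve.Affine Polynomial
open Fermat.Agent.GaloisBasics

namespace Fermat.Agent.TWHyp

variable (W : WeierstrassCurve ℤ)

/-- The Galois action on the `n`-torsion. -/
abbrev torsionEnd (n : ℕ) :=
  Point.galoisRepModuleEnd (K := AlgebraicClosure ℚ) ℚ (W.map (Int.castRingHom ℚ)) n

/-- Trace and determinant of Frobenius on `n`-torsion at a good prime. -/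
theorem frobenius_trace_det {n q : ℕ} (hq : q.Prime) (hn : ¬ q ∣ n) (hgood : W.IsGoodPrimeFor q)
    {A : ValuationSubring Qbar} (hA : A.LiesOverPrime q) {φ : GalQ}
    (hφ : A.IsFrobeniusAt φ q) :
    LinearMap.trace (ZMod n) _ (torsionEnd W n φ) = (W.apOfModel q : ZMod n) ∧
      LinearMap.det (torsionEnd W n φ) = (q : ZMod n) := by
  let := ECReduction.residueAlgebra (A := A) hA hq
  have : Fact q.Prime := ⟨hq⟩
  have := GaloisBasics.residueField_isAlgClosed A
  have : (W.reductionMod q).IsElliptic := ⟨by
    rw [reductionMod, map_Δ, isUnit_iff_ne_zero]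
    simpa [IsGoodPrimeFor, ZMod.intCast_zmod_eq_zero_iff_dvd] using hgood⟩
  have hbij := ECReduction.redTorsion_bijective_of_not_dvd W hA hq hgood hn
  have hk := ECReduction.natCast_residue_ne_zero (A := A) hA hq hn
  have hpsi : ∀ a, ECReduction.frobAlgHom A q hA hq a = a ^ Nat.card (ZMod q) := fun a => by
    rw [Nat.card_zmod, ECReduction.frobAlgHom_apply]
  have h1 := ECFrobenius.trace_frobenius (W.reductionMod q) (ECReduction.frobAlgHom A q hA hq)
    hpsi hk (ECReduction.frobTorsion W hA hq n) (fun x => ECReduction.coe_frobTorsion W hA hq n x)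
  have h2 := ECFrobenius.det_frobenius (W.reductionMod q) (ECReduction.frobAlgHom A q hA hq)
    hpsi hk (ECReduction.frobTorsion W hA hq n) (fun x => ECReduction.coe_frobTorsion W hA hq n x)
  rw [Nat.card_zmod] at h2
  constructor
  · rw [← Point.galoisTrace_def, ECReduction.galoisTrace_eq_frobTorsion W hA hq hgood hφ hbij]
    exact h1
  · have h3 := ECReduction.galoisRepDet_eq_frobTorsion W hA hq hgood hφ hbij
    rw [h2, Point.galoisRepDet_apply, LinearEquiv.coe_det] at h3
    exact h3

/-- Trace and determinant of Frobenius at good primes. -/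
theorem frobeniusTraceDet (p : ℕ) [Fact p.Prime] : LevelRaisingPrime.FrobeniusTraceDet W p :=
  fun ℓ hℓ hℓp hgood A hA φ hφ => by
    exact frobenius_trace_det W hℓ
      (fun h => hℓp ((Nat.prime_dvd_prime_iff_eq hℓ Fact.out).mp h)) hgood hA hφ

/-- Frobenius elements outside a finite set generate. -/
theorem frobGenerates (S : Finset ℕ) : RepTheory.FrobGenerates (↑S : Set ℕ) :=
  RepTheory.frobGenerates_finset (fun L hL σ S₀ => by
    have := hL
    obtain ⟨ℓ, hℓ, hS, -, A, hA, φ, hφ, -, -, a, -, -, -, -, ha⟩ :=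
      Chebotarev.exists_isFrobeniusAt_pow L σ S₀
    exact ⟨ℓ, hℓ, hS, A, hA, φ, hφ, a, ha⟩) S

variable {p : ℕ} [Fact p.Prime] (hΔ : W.Δ ≠ 0)

/-- The determinant is the mod `p` cyclotomic character. -/
theorem residualRep_detIsCyclotomic :
    (GaloisRepAdic.ofResidualGaloisRep (residualRep W hΔ p)).DetIsCyclotomic p := by
  have hpr : p.Prime := Fact.out
  refine Oddness.detIsCyclotomic_of_frobenius hpr (by rw [ZMod.natCast_self]; exact zero_mem _)
    (frobGenerates (insert p W.Δ.natAbs.primeFactors)) (by simp) _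
    fun ℓ hℓ hℓS P hP φ hφ => ?_
  simp only [Finset.coe_insert, Set.mem_insert_iff, Finset.mem_coe, not_or] at hℓS
  exact (frobenius_trace_det W hℓ (fun h => hℓS.1 ((Nat.prime_dvd_prime_iff_eq hℓ hpr).mp h))
    (fun hd => hℓS.2 (Nat.mem_primeFactors.mpr
      ⟨hℓ, Int.natCast_dvd.mp hd, Int.natAbs_ne_zero.mpr hΔ⟩)) hP hφ).2

/-- A unipotent endomorphism of a plane has characteristic polynomial `(X - 1)²`. -/
lemma charpoly_of_sub_one_sq {k V : Type*} [Field k] [AddCommGroup V] [Module k V]
    [Module.Finite k V] (hV : Module.finrank k V = 2) {f : Module.End k V}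
    (hf : (f - 1) * (f - 1) = 0) : LinearMap.charpoly f = (X - 1) ^ 2 := by
  let b := Module.finBasisOfFinrankEq k V hV
  set M := LinearMap.toMatrixAlgEquiv b f
  have hM : (M - 1) * (M - 1) = 0 := by
    have := congrArg (LinearMap.toMatrixAlgEquiv b) hf
    rwa [map_mul, map_sub, map_one, map_zero] at this
  have hnil : IsNilpotent (M - 1) := ⟨2, by rw [sq]; exact hM⟩
  rw [← LinearMap.charpoly_toMatrix f b]
  change M.charpoly = _
  have hc := Matrix.isNilpotent_charpoly_sub_pow_of_isNilpotent hnil
  have hdet : (M - 1).det = 0 := by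
    have := congrArg Matrix.det hM
    rw [Matrix.det_mul, Matrix.det_zero] at this
    simpa using this
  have htr : (M - 1).trace = 0 := (Matrix.isNilpotent_trace_of_isNilpotent hnil).eq_zero
  rw [Matrix.det_fin_two] at hdet
  rw [Matrix.trace_fin_two] at htr
  simp at hdet htr
  have e1 : M.trace = 2 := by rw [Matrix.trace_fin_two]; linear_combination htr
  have e2 : M.det = 1 := by rw [Matrix.det_fin_two]; linear_combination hdet + htr
  rw [Matrix.charpoly_fin_two, e1, e2, map_one, map_ofNat]
  ring

/-- A semistable curve has unipotent inertia away from `p`. -/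
theorem residualRep_isUnipotentOnInertiaAt (hW : W.IsSemistableModel) {q : ℕ} (hq : q.Prime)
    (hqp : q ≠ p) :
    (GaloisRepAdic.ofResidualGaloisRep (residualRep W hΔ p)).IsUnipotentOnInertiaAt q := by
  have hpr : p.Prime := Fact.out
  have hn : ¬ q ∣ p := fun h => hqp ((Nat.prime_dvd_prime_iff_eq hq hpr).mp h)
  intro A hA σ hσ
  refine charpoly_of_sub_one_sq (residualRep W hΔ p).finrank_eq ?_
  by_cases hd : (q : ℤ) ∣ W.Δ
  · exact Multiplicative.galoisRepModuleEnd_sub_one_sq ⟨hq, hA, hd, hW q hq hd, hΔ⟩ hσ hn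
  · have h1 : (residualRep W hΔ p).ρ σ = 1 :=
      LinearMap.ext fun x => ECReduction.galoisRepUnramifiedAt_of_good W hq hn hd rfl A hA σ hσ x
    change ((residualRep W hΔ p).ρ σ - 1) * ((residualRep W hΔ p).ρ σ - 1) = 0
    rw [h1, sub_self, zero_mul]

/-- The hypotheses of `IsTWResidual` for a semistable curve. -/
theorem isTWResidual_residualRep (hW : W.IsSemistableModel) (hirr : W.ModRepIsIrreducible p) :
    IsTWResidual p (residualRep W hΔ p) where
  irreducible := residualRep_isIrreducible W hΔ p hirr
  det_cyclotomic := residualRep_detIsCyclotomic W hΔ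
  unipotent _ hq hqp := residualRep_isUnipotentOnInertiaAt W hΔ hW hq hqp

end Fermat.Agent.TWHyp
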