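import Fermat.Agent.TWHyp.IndexTwo
import Fermat.Agent.RepTheory.GaloisBridge
import Fermat.Agent.ConductorLevel.ResidualIrred
import Fermat.Prelude.Def_GaloisRep_LocalConditions
import Fermat.Prelude.Def_FLTPrelim_ModularRep
import Fermat.Agent.ECTorsion.Galois

/-!
# The Taylor–Wiles hypotheses for a residual representation over `ZMod p`, `p = 3, 5`

`IsTWResidual p ρ` asks that `ρ` be irreducible, have cyclotomic determinant and unipotent inertia
away from `p`. Extending the scalars, e.g. to a field with `p²` elements, keeps these and gives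
absolute irreducibility, irreducibility on index two subgroups and split characteristic
polynomials.
-/

set_option autoImplicit false

open Matrix Polynomial
open scoped TensorProduct
open Fermat.Agent.GaloisBasics

namespace Fermat.Agent.TWHyp

open Fermat.Agent.RepTheory (matRep matRep_apply det_matRep charpoly_matRep)

variable {p : ℕ} [Fact p.Prime]

/-- The hypotheses on a residual representation over `ZMod p`. -/
structure IsTWResidual (p : ℕ) [Fact p.Prime] (ρ : ResidualGaloisRep (ZMod p)) : Prop where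
  irreducible : ρ.IsIrreducible
  det_cyclotomic : (GaloisRepAdic.ofResidualGaloisRep ρ).DetIsCyclotomic p
  unipotent : ∀ q : ℕ, q.Prime → q ≠ p →
    (GaloisRepAdic.ofResidualGaloisRep ρ).IsUnipotentOnInertiaAt q

variable {ρ : ResidualGaloisRep (ZMod p)}

/-- A residual representation satisfying the hypotheses gives a matrix representation satisfying
them. -/
lemma isTWRep_matRep (h : IsTWResidual p ρ) (b : Module.Basis (Fin 2) (ZMod p) ρ.V) :
    IsTWRep p (matRep b ρ.ρ) where
  finiteLevel := by
    obtain ⟨L, hL, hLr⟩ := ρ.factorsThroughFiniteLevel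
    exact ⟨L, hL, fun σ hσ => by rw [matRep_apply, hLr σ hσ, Module.End.one_eq_id,
      LinearMap.toMatrix_id]⟩
  det_cyclotomic σ a ha := by
    have h1 := h.det_cyclotomic.2 1 σ a (by simpa using ha)
    rw [pow_one, ZMod.natCast_self, Ideal.mem_span_singleton, zero_dvd_iff, sub_eq_zero] at h1
    rw [det_matRep]
    exact h1
  unipotent q hq hqp A hA σ hσ := by
    have hc : LinearMap.charpoly (ρ.ρ σ) = (X - 1) ^ 2 := h.unipotent q hq hqp A hA σ hσ
    have hch := LinearMap.aeval_self_charpoly (ρ.ρ σ)
    rw [hc] at hch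
    have h' : (ρ.ρ σ - 1) * (ρ.ρ σ - 1) = 0 := by simpa [sq] using hch
    have := congrArg (LinearMap.toMatrixAlgEquiv b) h'
    rw [map_mul, map_sub, map_one, map_zero] at this
    exact this
  irreducible w hw := by
    by_contra hcon
    push Not at hcon
    set u := b.equivFun.symm w with hu
    have hu0 : u ≠ 0 := (LinearEquiv.map_ne_zero_iff _).mpr hw
    have hst : ∀ σ, ∀ x ∈ Submodule.span (ZMod p) {u}, ρ.ρ σ x ∈ Submodule.span (ZMod p) {u} := by
      intro σ x hx
      obtain ⟨t, rfl⟩ := Submodule.mem_span_singleton.mp hx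
      obtain ⟨a, ha⟩ := hcon σ
      refine Submodule.mem_span_singleton.mpr ⟨t * a, ?_⟩
      rw [map_smul, mul_smul]
      congr 1
      apply b.equivFun.injective
      rw [map_smul]
      have hw' : b.equivFun u = w := by rw [hu, LinearEquiv.apply_symm_apply]
      rw [hw', ← ha, matRep_apply, ← hw', Module.Basis.equivFun_apply, Module.Basis.equivFun_apply]
      exact LinearMap.toMatrix_mulVec_repr b b (ρ.ρ σ) u
    rcases h.irreducible _ hst with e | e
    · exact hu0 (by simpa using e)
    · have h1 := finrank_span_singleton (K := ZMod p) hu0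
      rw [e, finrank_top, ρ.finrank_eq] at h1
      omega

/-- A basis of a residual representation. -/
noncomputable def basisOf {k : Type} [Field k] (ρ : ResidualGaloisRep k) :
    Module.Basis (Fin 2) k ρ.V :=
  Module.finBasisOfFinrankEq k ρ.V ρ.finrank_eq

/-- Lines in the coordinates of a scalar extension of `ρ`. -/
lemma stable_eq_bot_or_top {K : Type*} [Field K] {V : Type*} [AddCommGroup V] [Module K V]
    (b' : Module.Basis (Fin 2) K V) (r' : GalQ →* Module.End K V) (φ : ZMod p →+* K)
    {r : GalQ →* Matrix (Fin 2) (Fin 2) (ZMod p)} (G : Subgroup GalQ)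
    (hr : ∀ σ, LinearMap.toMatrix b' b' (r' σ) = (r σ).map φ)
    (h : ∀ v : Fin 2 → K, v ≠ 0 → ∃ g ∈ G, ¬ Eig ((r g).map φ) v)
    (W : Submodule K V) (hW : ∀ σ ∈ G, ∀ x ∈ W, r' σ x ∈ W) : W = ⊥ ∨ W = ⊤ := by
  have := Module.Finite.of_basis b'
  have hV : Module.finrank K V = 2 := by simp [Module.finrank_eq_card_basis b']
  refine ConductorLevel.eq_bot_or_top_of_no_stable_line hV (r'.comp G.subtype) (fun v hv => ?_) W
    (fun g => hW g g.2)
  obtain ⟨g, hg, hne⟩ := h (b'.equivFun v) (by simpa using hv)
  refine ⟨⟨g, hg⟩, fun a e => hne ⟨a, ?_⟩⟩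
  rw [← hr, Module.Basis.equivFun_apply, LinearMap.toMatrix_mulVec_repr]
  change ⇑(b'.repr (r' g v)) = _
  rw [show r' g v = a • v from e, map_smul]
  rfl

section Extend

variable (k : Type) [Field k] [Algebra (ZMod p) k]

/-- No line of the extended representation is stable under an index two subgroup, over any field. -/
theorem eq_bot_or_top_of_index_two (hp : p = 3 ∨ p = 5) (h : IsTWResidual p ρ) (K : Type) [Field K]
    [Algebra k K] (G : Subgroup GalQ) (hG : G.index = 2)
    (W : Submodule K ((ρ.baseChange k).baseChange K).V)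
    (hW : ∀ σ ∈ G, ∀ x ∈ W, ((ρ.baseChange k).baseChange K).ρ σ x ∈ W) : W = ⊥ ∨ W = ⊤ := by
  refine stable_eq_bot_or_top (p := p) (r := matRep (basisOf ρ) ρ.ρ)
    (Algebra.TensorProduct.basis K (Algebra.TensorProduct.basis k (basisOf ρ))) _
    ((algebraMap k K).comp (algebraMap (ZMod p) k)) G (fun σ => ?_)
    (fun v hv => exists_not_eig_of_index_two hp (isTWRep_matRep h _) _ G hG hv) W hW
  change LinearMap.toMatrix _ _ (((ρ.ρ σ).baseChange k).baseChange K) = _
  rw [LinearMap.toMatrix_baseChange, LinearMap.toMatrix_baseChange, Matrix.map_map, matRep_apply]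
  rfl

/-- Absolute irreducibility of the extended representation. -/
theorem isAbsolutelyIrreducible_baseChange (hp : p ≠ 2) (h : IsTWResidual p ρ) :
    (ρ.baseChange k).IsAbsolutelyIrreducible := by
  intro W hW
  have hr := isTWRep_matRep h (basisOf ρ)
  obtain ⟨hcc, hdc⟩ := hr.conj_sq
  refine stable_eq_bot_or_top (p := p) (r := matRep (basisOf ρ) ρ.ρ)
    (Algebra.TensorProduct.basis (AlgebraicClosure k)
      (Algebra.TensorProduct.basis k (basisOf ρ))) _
    ((algebraMap k (AlgebraicClosure k)).comp (algebraMap (ZMod p) k)) ⊤ (fun σ => ?_)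
    (fun v hv => ?_) W (fun σ _ => hW σ)
  · change LinearMap.toMatrix _ _ (((ρ.ρ σ).baseChange k).baseChange (AlgebraicClosure k)) = _
    rw [LinearMap.toMatrix_baseChange, LinearMap.toMatrix_baseChange, Matrix.map_map, matRep_apply]
    rfl
  · obtain ⟨g, hg⟩ := abs_irreducible _ (two_ne_zero_of_ne_two hp) _ hcc hdc hr.irreducible v hv
    exact ⟨g, Subgroup.mem_top g, hg⟩

/-- The determinant of the extension is cyclotomic. -/
theorem detIsCyclotomic_baseChange (h : IsTWResidual p ρ) :
    (GaloisRepAdic.ofResidualGaloisRep (ρ.baseChange k)).DetIsCyclotomic p := by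
  refine ⟨?_, fun n σ a ha => ?_⟩
  · rw [← map_natCast (algebraMap (ZMod p) k), ZMod.natCast_self, map_zero]
    exact zero_mem _
  · have h1 := h.det_cyclotomic.2 n σ a ha
    change LinearMap.det ((ρ.ρ σ).baseChange k) - (a : k) ∈ _
    rw [LinearMap.det_baseChange, ← map_natCast (algebraMap (ZMod p) k) a, ← map_sub,
      ← map_natCast (algebraMap (ZMod p) k) (p ^ n), ← Set.image_singleton, ← Ideal.map_span]
    exact Ideal.mem_map_of_mem _ h1

/-- Unipotence on inertia is kept by the extension. -/
theorem isUnipotentOnInertiaAt_baseChange {q : ℕ}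
    (h : (GaloisRepAdic.ofResidualGaloisRep ρ).IsUnipotentOnInertiaAt q) :
    (GaloisRepAdic.ofResidualGaloisRep (ρ.baseChange k)).IsUnipotentOnInertiaAt q := by
  intro P hP σ hσ
  have h1 : LinearMap.charpoly (ρ.ρ σ) = (X - 1) ^ 2 := h P hP σ hσ
  change LinearMap.charpoly ((ρ.ρ σ).baseChange k) = _
  rw [LinearMap.charpoly_baseChange, h1]
  simp

/-- Unramifiedness is insensitive to the extension. -/
theorem isUnramifiedAt_baseChange_iff (q : ℕ) :
    (ρ.baseChange k).IsUnramifiedAt q ↔ ρ.IsUnramifiedAt q := by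
  refine forall_congr' fun A => forall_congr' fun _ => forall₂_congr fun σ _ => ?_
  change (ρ.ρ σ).baseChange k = 1 ↔ ρ.ρ σ = 1
  refine ⟨fun e => ?_, fun e => by rw [e, LinearMap.baseChange_one]⟩
  apply (LinearMap.toMatrix (basisOf ρ) (basisOf ρ)).injective
  apply Matrix.map_injective (algebraMap (ZMod p) k).injective
  beta_reduce
  rw [← LinearMap.toMatrix_baseChange, ← LinearMap.toMatrix_baseChange, e,
    LinearMap.baseChange_one]

/-- Over a field with `p ^ 2` elements all characteristic polynomials split. -/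
theorem charpoly_split (hp : p ≠ 2) (hk : Nat.card k = p ^ 2) (ρ : ResidualGaloisRep (ZMod p))
    (σ : GalQ) :
    ∃ α β : k, LinearMap.charpoly ((ρ.baseChange k).ρ σ) = (X - C α) * (X - C β) := by
  have hpr : p.Prime := Fact.out
  have : Finite k := Nat.finite_of_card_ne_zero (by rw [hk]; exact pow_ne_zero 2 hpr.ne_zero)
  have := Fintype.ofFinite k
  set M := matRep (basisOf ρ) ρ.ρ σ
  have hc : LinearMap.charpoly ((ρ.baseChange k).ρ σ)
      = X ^ 2 - C (algebraMap (ZMod p) k M.trace) * X + C (algebraMap (ZMod p) k M.det) := by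
    change LinearMap.charpoly ((ρ.ρ σ).baseChange k) = _
    rw [LinearMap.charpoly_baseChange, ← LinearMap.charpoly_toMatrix (ρ.ρ σ) (basisOf ρ)]
    change M.charpoly.map _ = _
    rw [Matrix.charpoly_fin_two]
    simp
  set t := algebraMap (ZMod p) k M.trace
  set d := algebraMap (ZMod p) k M.det
  have hchar : CharP k p := charP_of_injective_algebraMap (algebraMap (ZMod p) k).injective p
  have hring : ringChar k ≠ 2 := by rw [ringChar.eq k p]; exact hp
  have h2 : (2 : k) ≠ 0 := Ring.two_ne_zero hring
  obtain ⟨s, hs⟩ : IsSquare (algebraMap (ZMod p) k (M.trace ^ 2 - 4 * M.det)) := by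
    set e := M.trace ^ 2 - 4 * M.det
    by_cases he : e = 0
    · rw [he, map_zero]; exact IsSquare.zero
    rw [FiniteField.isSquare_iff hring ((_root_.map_ne_zero _).mpr he), ← map_pow,
      ← Nat.card_eq_fintype_card, hk]
    obtain ⟨j, rfl⟩ := hpr.odd_of_ne_two hp
    have e1 : (2 * j + 1) ^ 2 / 2 = (2 * j + 1 - 1) * (j + 1) := by
      rw [show (2 * j + 1) ^ 2 = 1 + (2 * j * (j + 1)) * 2 by ring,
        Nat.add_mul_div_right _ _ two_pos]
      simp
    rw [e1, pow_mul, ZMod.pow_card_sub_one_eq_one he, one_pow, map_one]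
  rw [map_sub, map_pow, map_mul, map_ofNat] at hs
  refine ⟨(t + s) / 2, (t - s) / 2, ?_⟩
  rw [hc]
  have e1 : (t + s) / 2 + (t - s) / 2 = t := by field_simp; ring
  have e2 : (t + s) / 2 * ((t - s) / 2) = d := by
    field_simp
    linear_combination hs
  conv_lhs => rw [← e1, ← e2]
  rw [map_add, map_mul]
  ring

end Extend

/-- The mod `p` representation of an integral Weierstrass curve. -/
noncomputable def residualRep (W : WeierstrassCurve ℤ) (hΔ : W.Δ ≠ 0) (p : ℕ) [Fact p.Prime] :
    ResidualGaloisRep (ZMod p) :=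
  (W.map (Int.castRingHom ℚ)).residualGaloisRepOf p
    (ECTorsion.card_torsionBy_int W hΔ (Fact.out : p.Prime).ne_zero)
    (ECTorsion.galoisFactorsThroughFiniteLevel _ (ECTorsion.Δ_map_intCast_ne_zero W hΔ)
      (Fact.out : p.Prime).ne_zero)

/-- Irreducibility of the mod `p` representation, in terms of `residualRep`. -/
theorem residualRep_isIrreducible (W : WeierstrassCurve ℤ) (hΔ : W.Δ ≠ 0) (p : ℕ) [Fact p.Prime]
    (hirr : W.ModRepIsIrreducible p) : (residualRep W hΔ p).IsIrreducible :=
  fun N hN => hirr.2 N hN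

end Fermat.Agent.TWHyp
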