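import Fermat.Agent.TWHyp.Curve

/-!
# Auxiliary primes for the Taylor–Wiles argument

For `p = 3` an irreducible semistable mod 3 representation has an element of determinant `-1` and
nonzero trace, so by Chebotarev there are primes `ℓ ≡ 2 (mod 3)` outside any finite set with
`3 ∤ a_ℓ` (`exists_prime_two_mod_three`).
-/

set_option autoImplicit false

open Matrix
open Fermat.Agent.GaloisBasics

namespace Fermat.Agent.TWHyp

section CommonEigenvector

variable {K : Type*} [Field K] [IsAlgClosed K] {ι : Type*}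

/-- Commuting matrices over an algebraically closed field have a common eigenvector. -/
lemma exists_common_eig (M : ι → Matrix (Fin 2) (Fin 2) K) (hcomm : ∀ i j, M i * M j = M j * M i) :
    ∃ v : Fin 2 → K, v ≠ 0 ∧ ∀ i, Eig (M i) v := by
  by_cases hsc : ∀ i, ∃ a : K, M i = a • 1
  · refine ⟨![1, 0], fun e => one_ne_zero (α := K) (by simpa using congrFun e 0), fun i => ?_⟩
    obtain ⟨a, ha⟩ := hsc i
    exact ⟨a, by rw [ha, smul_mulVec, one_mulVec]⟩
  push Not at hsc
  obtain ⟨i₀, hi₀⟩ := hsc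
  obtain ⟨a, ha⟩ := IsAlgClosed.exists_root (M i₀).charpoly (by
    rw [Matrix.charpoly_degree_eq_dim]; simp)
  have hd : (M i₀ - a • 1).det = 0 := by
    have h1 := ha
    rw [Polynomial.IsRoot.def, Matrix.eval_charpoly] at h1
    have e : M i₀ - a • 1 = -(Matrix.scalar (Fin 2) a - M i₀) := by
      rw [Matrix.scalar_apply, ← Matrix.smul_one_eq_diagonal]; abel
    rw [e, Matrix.det_neg, h1, mul_zero]
  obtain ⟨w, hw, hwk, hline⟩ := exists_kernel (RingHom.id K) (sub_ne_zero.mpr (hi₀ a)) hd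
  refine ⟨w, hw, fun i => ?_⟩
  obtain ⟨t, ht⟩ := hline (M i *ᵥ w) (by
    simp only [RingHom.coe_id, Matrix.map_id]
    have hc : (M i₀ - a • 1) * M i = M i * (M i₀ - a • 1) := by
      rw [sub_mul, mul_sub, hcomm i₀ i, smul_mul, Matrix.mul_smul, one_mul, mul_one]
    rw [mulVec_mulVec, hc, ← mulVec_mulVec, hwk, mulVec_zero])
  exact ⟨t, by simpa using ht⟩

end CommonEigenvector

lemma two_eq_neg_one : ((2 : ℕ) : ZMod 3) = -1 := by decide

variable {r : GalQ →* Matrix (Fin 2) (Fin 2) (ZMod 3)} [Fact (Nat.Prime 3)]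

lemma sq_eq_one_of_trace (M : Matrix (Fin 2) (Fin 2) (ZMod 3)) (hd : M.det = -1)
    (ht : M.trace = 0) : M * M = 1 := by
  rw [det_fin_two] at hd
  rw [trace_fin_two] at ht
  ext i j
  fin_cases i <;> fin_cases j <;> simp [mul_apply, Fin.sum_univ_two]
  · linear_combination M 0 0 * ht - hd
  · linear_combination M 0 1 * ht
  · linear_combination M 1 0 * ht
  · linear_combination M 1 1 * ht - hd

/-- Some element has determinant `-1` and nonzero trace. -/
theorem exists_det_neg_one_trace_ne_zero (h : IsTWRep 3 r) :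
    ∃ σ, (r σ).det = -1 ∧ (r σ).trace ≠ 0 := by
  by_contra hcon
  push Not at hcon
  obtain ⟨hcc, hdc⟩ := h.conj_sq
  let d : GalQ →* ZMod 3 := Matrix.detMonoidHom.comp r
  have hpm : ∀ g, d g = 1 ∨ d g = -1 := fun g => by
    have hne : d g ≠ 0 := fun e => by
      have : d g * d g⁻¹ = 1 := by rw [← map_mul, mul_inv_cancel, map_one]
      rw [e, zero_mul] at this
      exact zero_ne_one this
    exact mul_self_eq_one_iff.mp (by rw [← sq]; exact ZMod.pow_card_sub_one_eq_one hne)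
  let G : Subgroup GalQ := d.ker
  have hmem : ∀ g, g ∈ G ↔ (r g).det = 1 := fun g => Iff.rfl
  have h11 : (-1 : ZMod 3) ≠ 1 := fun e => two_ne_zero_of_ne_two (p := 3) (by norm_num)
    (by linear_combination -e)
  have hG : G.index = 2 := by
    rw [Subgroup.index_eq_two_iff]
    refine ⟨complexConjugation, fun b => ?_⟩
    rw [hmem, hmem, map_mul, det_mul, hdc]
    rcases hpm b with e | e <;> change (r b).det = _ at e <;> rw [e]
    · exact Or.inr ⟨rfl, by simpa using h11⟩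
    · exact Or.inl ⟨by norm_num, h11⟩
  set c := r complexConjugation
  have hinv : ∀ g ∈ G, c * r g * (c * r g) = 1 := fun g hg => by
    have hd : (c * r g).det = -1 := by rw [det_mul, hdc, (hmem g).mp hg, mul_one]
    have ht := hcon (complexConjugation * g)
    rw [map_mul] at ht
    exact sq_eq_one_of_trace _ hd (ht hd)
  have hab : ∀ g ∈ G, ∀ g' ∈ G, r g * r g' = r g' * r g := fun g hg g' hg' => by
    -- conjugation by `c` inverts, and is multiplicative
    have key : ∀ x ∈ G, c * r x * c = r x⁻¹ := fun x hx => by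
      have e := hinv x hx
      calc c * r x * c = c * r x * (c * r x) * r x⁻¹ := by
            simp only [mul_assoc, ← map_mul, mul_inv_cancel, map_one, mul_one]
        _ = r x⁻¹ := by rw [e, one_mul]
    have e1 : r (g⁻¹ * g'⁻¹) = r ((g * g')⁻¹) := by
      rw [← key _ (G.mul_mem hg hg'), map_mul r g g', map_mul, ← key g hg, ← key g' hg']
      simp only [mul_assoc]
      rw [← mul_assoc c c, hcc, one_mul]
    rw [_root_.mul_inv_rev, map_mul, map_mul] at e1
    have e2 := congrArg (fun y => r g' * (r g * y) * (r g * r g')) e1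
    simp only [← map_mul] at e2
    rw [show g' * (g * (g⁻¹ * g'⁻¹)) * (g * g') = g * g' by group,
      show g' * (g * (g'⁻¹ * g⁻¹)) * (g * g') = g' * g by group] at e2
    simpa [map_mul] using e2
  obtain ⟨v, hv, heig⟩ := exists_common_eig
    (fun g : G => (r g).map (algebraMap (ZMod 3) (AlgebraicClosure (ZMod 3)))) fun g g' => by
      rw [← Matrix.map_mul, ← Matrix.map_mul, hab g g.2 g' g'.2]
  obtain ⟨g, hg, hne⟩ := exists_not_eig_of_index_two (Or.inl rfl) h _ G hG hv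
  exact hne (heig ⟨g, hg⟩)

/-- For `p = 3`: a prime `ℓ ≡ 2 (mod 3)` outside `S` with `a_ℓ ≢ 0 (mod 3)`. -/
theorem exists_prime_two_mod_three (W : WeierstrassCurve ℤ) (hΔ : W.Δ ≠ 0)
    (hW : W.IsSemistableModel) (hirr : W.ModRepIsIrreducible 3) (S : Finset ℕ) :
    ∃ ℓ : ℕ, ℓ.Prime ∧ ℓ ∉ S ∧ ℓ ≠ 3 ∧ W.IsGoodPrimeFor ℓ ∧ ℓ % 3 = 2 ∧
      ((W.apOfModel ℓ : ℤ) : ZMod 3) ≠ 0 := by
  have h := isTWRep_matRep (isTWResidual_residualRep W hΔ hW hirr) (basisOf _)
  obtain ⟨σ, hdσ, htσ⟩ := exists_det_neg_one_trace_ne_zero h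
  obtain ⟨L, hL, hLr⟩ := h.finiteLevel
  obtain ⟨ℓ, hℓ, hℓS, -, A, hA, φ, hφ, -, -, a, -, -, -, -, ha⟩ :=
    Chebotarev.exists_isFrobeniusAt_pow L σ (S ∪ insert 3 W.Δ.natAbs.primeFactors)
  simp only [Finset.mem_union, Finset.mem_insert, not_or] at hℓS
  have hgood : W.IsGoodPrimeFor ℓ := fun hd => hℓS.2.2
    (Nat.mem_primeFactors.mpr ⟨hℓ, Int.natCast_dvd.mp hd, Int.natAbs_ne_zero.mpr hΔ⟩)
  set r := RepTheory.matRep (basisOf (residualRep W hΔ 3)) (residualRep W hΔ 3).ρ
  have hpow : r σ = r φ ^ a := by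
    have h1 := hLr ((φ ^ a)⁻¹ * σ) fun x hx => by
      rw [AlgEquiv.mul_apply, ha x hx]
      exact (φ ^ a).symm_apply_apply x
    have h2 := congrArg (fun y => r (φ ^ a) * y) h1
    simp only [← map_mul, mul_inv_cancel_left, mul_one] at h2
    rw [h2, map_pow]
  obtain ⟨htr, hdt⟩ := frobenius_trace_det W (n := 3) hℓ
    (fun e => hℓS.2.1 ((Nat.prime_dvd_prime_iff_eq hℓ Nat.prime_three).mp e)) hgood hA hφ
  have hdφ : (r φ).det = (ℓ : ZMod 3) := (RepTheory.det_matRep _ _ _).trans hdt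
  have htφ : (r φ).trace = (W.apOfModel ℓ : ZMod 3) := (RepTheory.trace_matRep _ _ _).trans htr
  rw [hpow, det_pow, hdφ] at hdσ
  have hℓ3 : ℓ % 3 = 2 := by
    have hne : ¬ 3 ∣ ℓ := fun e =>
      hℓS.2.1 ((Nat.prime_dvd_prime_iff_eq Nat.prime_three hℓ).mp e).symm
    rcases (show ℓ % 3 = 1 ∨ ℓ % 3 = 2 by omega) with e | e
    · exfalso
      rw [← ZMod.natCast_mod, e, Nat.cast_one, one_pow] at hdσ
      exact two_ne_zero_of_ne_two (p := 3) (by norm_num) (by linear_combination hdσ)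
    · exact e
  refine ⟨ℓ, hℓ, hℓS.1, hℓS.2.1, hgood, hℓ3, fun e0 => htσ ?_⟩
  have hd1 : (r φ).det = -1 := by
    rw [hdφ, ← ZMod.natCast_mod, hℓ3]; exact two_eq_neg_one
  have hsq := sq_eq_one_of_trace _ hd1 (htφ.trans e0)
  rw [hpow]
  rcases Nat.even_or_odd' a with ⟨k, rfl | rfl⟩
  · exfalso
    rw [pow_mul, ← ZMod.natCast_mod ℓ 3, hℓ3] at hdσ
    rw [two_eq_neg_one, neg_one_sq, one_pow] at hdσ
    exact two_ne_zero_of_ne_two (p := 3) (by norm_num) (by linear_combination hdσ)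
  · rw [pow_succ, pow_mul, sq, hsq, one_pow, one_mul, htφ, e0]

end Fermat.Agent.TWHyp
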