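import Mathlib.LinearAlgebra.Matrix.GeneralLinearGroup.Card
import Mathlib.LinearAlgebra.Matrix.Charpoly.Coeff
import Mathlib.GroupTheory.Sylow
import Mathlib.GroupTheory.Index
import Mathlib.GroupTheory.IndexNormal
import Mathlib.LinearAlgebra.Matrix.CharP
import Mathlib.Algebra.CharP.Basic
import Mathlib.Tactic

/-!
# Taylor–Wiles irreducibility: the group theoretic core

An odd irreducible two-dimensional representation `r` over `ZMod p` (`p` odd) which is reducible on
an index two subgroup `G` (over some extension field) has no nontrivial unipotent in its image.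
If moreover its image is a 2-group and `G` is the only index two subgroup containing the kernel,
we get a contradiction; for `p = 3, 5` the image is forced to be a 2-group.
-/

set_option autoImplicit false

open Matrix

namespace Fermat.Agent.TWHyp

variable {F : Type*} [Field F] {K : Type*} [Field K] (φ : F →+* K)

/-- `v` is an eigenvector of `M`. -/
def Eig (M : Matrix (Fin 2) (Fin 2) F) (v : Fin 2 → F) : Prop := ∃ a : F, M *ᵥ v = a • v

/-- The determinant of two vectors. -/
def det2 (v w : Fin 2 → F) : F := v 0 * w 1 - v 1 * w 0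

lemma eq_zero_iff_two (v : Fin 2 → F) : v = 0 ↔ v 0 = 0 ∧ v 1 = 0 := by
  constructor
  · rintro rfl; simp
  · rintro ⟨h0, h1⟩; funext i; fin_cases i <;> simp [h0, h1]

/-- Vectors with vanishing determinant are proportional. -/
lemma exists_smul_of_det2_eq_zero {v w : Fin 2 → F} (hv : v ≠ 0) (h : det2 v w = 0) :
    ∃ t : F, w = t • v := by
  rw [Ne, eq_zero_iff_two, not_and_or] at hv
  simp only [det2] at h
  rcases hv with h0 | h1
  · refine ⟨w 0 / v 0, funext fun i => ?_⟩
    fin_cases i <;> simp only [Fin.zero_eta, Fin.mk_one, Pi.smul_apply, smul_eq_mul] <;> field_simp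
    linear_combination h
  · refine ⟨w 1 / v 1, funext fun i => ?_⟩
    fin_cases i <;> simp only [Fin.zero_eta, Fin.mk_one, Pi.smul_apply, smul_eq_mul] <;> field_simp
    linear_combination -h

lemma indep_of_det2 {v w : Fin 2 → F} (h : det2 v w ≠ 0) {a b : F} (hab : a • v + b • w = 0) :
    a = 0 ∧ b = 0 := by
  have e0 := congrFun hab 0
  have e1 := congrFun hab 1
  simp only [Pi.add_apply, Pi.smul_apply, smul_eq_mul, Pi.zero_apply] at e0 e1
  simp only [det2] at h
  constructor <;> apply mul_right_cancel₀ h <;> rw [zero_mul]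
  · linear_combination w 1 * e0 - w 0 * e1
  · linear_combination v 0 * e1 - v 1 * e0

/-- A matrix is determined by its values on two independent vectors. -/
lemma eq_of_mulVec_eq {M N : Matrix (Fin 2) (Fin 2) F} {v w : Fin 2 → F} (h : det2 v w ≠ 0)
    (hv : M *ᵥ v = N *ᵥ v) (hw : M *ᵥ w = N *ᵥ w) : M = N := by
  ext i j
  have ev := congrFun hv i
  have ew := congrFun hw i
  simp only [mulVec, dotProduct, Fin.sum_univ_two] at ev ew
  simp only [det2] at h
  fin_cases j <;> apply mul_right_cancel₀ h <;> simp only [Fin.zero_eta, Fin.mk_one]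
  · linear_combination w 1 * ev - v 1 * ew
  · linear_combination v 0 * ew - w 0 * ev

lemma map_mulVec (M : Matrix (Fin 2) (Fin 2) F) (v : Fin 2 → F) :
    M.map φ *ᵥ (φ ∘ v) = φ ∘ (M *ᵥ v) := by
  funext i
  simp [mulVec, dotProduct, Fin.sum_univ_two]

/-- Eigenvectors over an extension with base-field coordinates are eigenvectors over the base. -/
lemma eig_of_map {M : Matrix (Fin 2) (Fin 2) F} {v : Fin 2 → F} (hv : v ≠ 0)
    (h : Eig (M.map φ) (φ ∘ v)) : Eig M v := by
  obtain ⟨a, ha⟩ := h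
  rw [map_mulVec] at ha
  obtain ⟨t, ht⟩ := exists_smul_of_det2_eq_zero hv (w := M *ᵥ v) (by
    apply φ.injective
    have e0 := congrFun ha 0
    have e1 := congrFun ha 1
    simp only [Function.comp_apply, Pi.smul_apply, smul_eq_mul] at e0 e1
    simp only [det2, map_sub, map_mul, map_zero, e0, e1]
    ring)
  exact ⟨t, ht⟩

/-- A singular nonzero matrix has a rational kernel line, also after extending the scalars. -/
lemma exists_kernel {N : Matrix (Fin 2) (Fin 2) F} (hN : N ≠ 0) (hd : N.det = 0) :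
    ∃ w : Fin 2 → F, w ≠ 0 ∧ N *ᵥ w = 0 ∧
      ∀ v : Fin 2 → K, N.map φ *ᵥ v = 0 → ∃ t : K, v = t • (φ ∘ w) := by
  obtain ⟨i, hi⟩ : ∃ i, ![-N i 1, N i 0] ≠ 0 := by
    by_contra hcon
    push Not at hcon
    apply hN
    ext i j
    have := congrFun (hcon i)
    fin_cases j
    · simpa using this 1
    · simpa using this 0
  refine ⟨_, hi, ?_, fun v hv => ?_⟩
  · rw [det_fin_two] at hd
    funext j
    fin_cases i <;> fin_cases j <;> simp [mulVec, dotProduct, Fin.sum_univ_two] <;>
      first | ring1 | linear_combination hd | linear_combination -hd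
  · have hne : φ ∘ ![-N i 1, N i 0] ≠ 0 := fun e => hi (funext fun j =>
      φ.injective (by simpa using congrFun e j))
    apply exists_smul_of_det2_eq_zero hne
    have e := congrFun hv i
    simp only [mulVec, dotProduct, Fin.sum_univ_two, Pi.zero_apply, map_apply] at e
    simp [det2]
    linear_combination -e

/-! ### Involutions of determinant `-1` -/

section Involution

variable {M : Matrix (Fin 2) (Fin 2) F} (h2 : (2 : F) ≠ 0) (hMM : M * M = 1) (hd : M.det = -1)

include hMM hd in
/-- An involution of determinant `-1` has trace zero. -/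
lemma trace_eq_zero : M 0 0 + M 1 1 = 0 := by
  by_contra h
  have e := fun i j => congrFun (congrFun hMM i) j
  have e00 := e 0 0
  have e01 := e 0 1
  have e10 := e 1 0
  have e11 := e 1 1
  simp only [mul_apply, Fin.sum_univ_two, one_apply_eq, one_apply_ne zero_ne_one,
    one_apply_ne (zero_ne_one (α := Fin 2)).symm] at e00 e01 e10 e11
  rw [det_fin_two] at hd
  have h00 : M 0 0 * (M 0 0 + M 1 1) = 0 := by linear_combination e00 + hd
  have h11 : M 1 1 * (M 0 0 + M 1 1) = 0 := by linear_combination e11 + hd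
  exact h (by rw [(mul_eq_zero.mp h00).resolve_right h, (mul_eq_zero.mp h11).resolve_right h,
    add_zero])

include h2 hd in
lemma sub_scalar_ne_zero (ε : F) (hε : ε * ε = 1) : M - ε • 1 ≠ 0 := by
  intro e
  rw [sub_eq_zero] at e
  rw [e, det_fin_two] at hd
  simp at hd
  apply h2
  linear_combination hd - hε

include h2 hMM hd in
/-- An involution of determinant `-1` fixes exactly a line. -/
lemma exists_fixed_line : ∃ w : Fin 2 → F, w ≠ 0 ∧ M *ᵥ w = w ∧
    ∀ v : Fin 2 → F, M *ᵥ v = v → ∃ t : F, v = t • w := by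
  have ht := trace_eq_zero hMM hd
  have hdet : (M - (1 : F) • 1).det = 0 := by
    rw [det_fin_two] at hd ⊢
    simp
    linear_combination hd - ht
  obtain ⟨w, hw, hker, hline⟩ := exists_kernel (RingHom.id F)
    (sub_scalar_ne_zero h2 hd 1 (one_mul 1)) hdet
  refine ⟨w, hw, ?_, fun v hv => ?_⟩
  · rwa [sub_mulVec, one_smul, one_mulVec, sub_eq_zero] at hker
  · obtain ⟨t, ht⟩ := hline v (by
      simp only [RingHom.coe_id, Matrix.map_id]
      rw [sub_mulVec, one_smul, one_mulVec, hv, sub_self])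
    exact ⟨t, by simpa using ht⟩

include h2 hMM hd in
/-- The eigenlines of an involution of determinant `-1` over an extension field are rational. -/
lemma rational_of_eig {v : Fin 2 → K} (hv : v ≠ 0) (h : Eig (M.map φ) v) :
    ∃ w : Fin 2 → F, w ≠ 0 ∧ ∃ t : K, t ≠ 0 ∧ v = t • (φ ∘ w) := by
  obtain ⟨a, ha⟩ := h
  have hMMK : M.map φ * M.map φ = 1 := by
    rw [← Matrix.map_mul, hMM, Matrix.map_one _ φ.map_zero φ.map_one]
  have haa : a * a = 1 := by
    have e : (M.map φ * M.map φ) *ᵥ v = (a * a) • v := by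
      rw [← mulVec_mulVec, ha, mulVec_smul, ha, smul_smul]
    rw [hMMK, one_mulVec] at e
    obtain ⟨i, hi⟩ := Function.ne_iff.mp hv
    have := congrFun e i
    simp only [Pi.smul_apply, smul_eq_mul] at this
    exact mul_right_cancel₀ hi (by rw [one_mul]; exact this.symm)
  obtain ⟨ε, hε, rfl⟩ : ∃ ε : F, ε * ε = 1 ∧ φ ε = a := by
    rcases mul_self_eq_one_iff.mp haa with rfl | rfl
    · exact ⟨1, one_mul 1, map_one φ⟩
    · exact ⟨-1, by ring, by simp⟩
  have hmap : (M - ε • 1).map φ *ᵥ v = 0 := by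
    have : (M - ε • 1).map φ = M.map φ - φ ε • 1 := by
      ext i j; fin_cases i <;> fin_cases j <;> simp
    rw [this, sub_mulVec, smul_mulVec, one_mulVec, ha, sub_self]
  have hdet : (M - ε • 1).det = 0 := by
    apply φ.injective
    rw [map_zero, RingHom.map_det]
    exact exists_mulVec_eq_zero_iff.mp ⟨v, hv, hmap⟩
  obtain ⟨w, hw, -, hline⟩ := exists_kernel φ (sub_scalar_ne_zero h2 hd ε hε) hdet
  obtain ⟨t, ht⟩ := hline v hmap
  exact ⟨w, hw, t, fun e => hv (by rw [ht, e, zero_smul]), ht⟩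

end Involution

/-! ### The representation -/

variable {Γ : Type*} [Group Γ]

/-- Nonzero multiples of eigenvectors are eigenvectors. -/
lemma eig_smul_iff {M : Matrix (Fin 2) (Fin 2) F} {v : Fin 2 → F} {t : F} (ht : t ≠ 0) :
    Eig M (t • v) ↔ Eig M v := by
  constructor <;> rintro ⟨a, ha⟩ <;> refine ⟨a, ?_⟩
  · rw [mulVec_smul, smul_comm a t v] at ha
    exact smul_right_injective _ ht ha
  · rw [mulVec_smul, ha, smul_comm]

/-- An odd irreducible representation stays irreducible over every extension field. -/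
lemma abs_irreducible (h2 : (2 : F) ≠ 0) (r : Γ →* Matrix (Fin 2) (Fin 2) F) {c : Γ}
    (hcc : r c * r c = 1) (hdc : (r c).det = -1)
    (hirr : ∀ w : Fin 2 → F, w ≠ 0 → ∃ g, ¬ Eig (r g) w) :
    ∀ v : Fin 2 → K, v ≠ 0 → ∃ g, ¬ Eig ((r g).map φ) v := by
  intro v hv
  by_contra hcon
  push Not at hcon
  obtain ⟨w, hw, t, ht, rfl⟩ := rational_of_eig φ h2 hcc hdc hv (hcon c)
  obtain ⟨g, hg⟩ := hirr w hw
  exact hg (eig_of_map φ hw ((eig_smul_iff ht).mp (hcon g)))

variable (r : Γ →* Matrix (Fin 2) (Fin 2) F)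

/-- The data of a representation which becomes reducible on an index two subgroup. -/
structure BadPair (G : Subgroup Γ) (v v' : Fin 2 → K) : Prop where
  index : G.index = 2
  indep : det2 v v' ≠ 0
  eig : ∀ g ∈ G, Eig ((r g).map φ) v
  eig' : ∀ g ∈ G, Eig ((r g).map φ) v'
  swap : ∀ g, g ∉ G → (∃ b : K, (r g).map φ *ᵥ v = b • v') ∧ ∃ b : K, (r g).map φ *ᵥ v' = b • v

lemma map_mul_r (g h : Γ) : (r (g * h)).map φ = (r g).map φ * (r h).map φ := by
  rw [map_mul, Matrix.map_mul]

/-- Reducibility on an index two subgroup gives a pair of eigenlines swapped by its complement. -/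
lemma BadPair.exists_of_eig {G : Subgroup Γ} (hG : G.index = 2)
    (habs : ∀ v : Fin 2 → K, v ≠ 0 → ∃ g, ¬ Eig ((r g).map φ) v)
    {v : Fin 2 → K} (hv : v ≠ 0) (h : ∀ g ∈ G, Eig ((r g).map φ) v) :
    ∃ v', BadPair φ r G v v' := by
  have : G.Normal := Subgroup.normal_of_index_eq_two hG
  obtain ⟨g₀, hg₀⟩ := habs v hv
  have hg₀G : g₀ ∉ G := fun e => hg₀ (h g₀ e)
  set v' := (r g₀).map φ *ᵥ v with hv'
  have hswap : ∀ g, g ∉ G → ∃ x ∈ G, g = x * g₀ := by
    intro g hg
    refine ⟨g * g₀⁻¹, ?_, by group⟩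
    rw [Subgroup.mul_mem_iff_of_index_two hG]
    simp [hg, hg₀G]
  have heig' : ∀ g ∈ G, Eig ((r g).map φ) v' := by
    intro g hg
    obtain ⟨a, ha⟩ := h (g₀⁻¹ * g * g₀) (by
      simpa using this.conj_mem g hg g₀⁻¹)
    refine ⟨a, ?_⟩
    rw [hv', mulVec_mulVec, ← map_mul_r, ← mulVec_smul, ← ha, mulVec_mulVec, ← map_mul_r]
    congr 3
    group
  refine ⟨v', hG, fun e => ?_, h, heig', fun g hg => ?_⟩
  · obtain ⟨t, ht⟩ := exists_smul_of_det2_eq_zero hv e
    exact hg₀ ⟨t, ht⟩
  · obtain ⟨x, hx, rfl⟩ := hswap g hg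
    constructor
    · obtain ⟨b, hb⟩ := heig' x hx
      exact ⟨b, by rw [map_mul_r, ← mulVec_mulVec, ← hv', hb]⟩
    · obtain ⟨a, ha⟩ := h (x * g₀ * g₀) (by
        rw [mul_assoc]; exact G.mul_mem hx (Subgroup.mul_self_mem_of_index_two hG g₀))
      refine ⟨a, ?_⟩
      rw [hv', mulVec_mulVec, ← map_mul_r, ha]

variable {r} {φ} {G : Subgroup Γ} {v v' : Fin 2 → K}

/-- The kernel of the representation lies in the subgroup. -/
lemma BadPair.ker_le (hb : BadPair φ r G v v')
    (habs : ∀ v : Fin 2 → K, v ≠ 0 → ∃ g, ¬ Eig ((r g).map φ) v) {g : Γ} (hg : r g = 1) :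
    g ∈ G := by
  by_contra hgG
  have hv : v ≠ 0 := fun e => hb.indep (by simp [det2, e])
  obtain ⟨σ, hσ⟩ := habs v hv
  have hσG : σ ∉ G := fun e => hσ (hb.eig σ e)
  apply hσ
  have := hb.eig (σ * g) (by rw [Subgroup.mul_mem_iff_of_index_two hb.index]; simp [hσG, hgG])
  rwa [map_mul, hg, mul_one] at this

/-- There are no nontrivial unipotents. -/
lemma BadPair.eq_one_of_sq (hb : BadPair φ r G v v') (h2 : (2 : F) ≠ 0) {σ : Γ}
    (hσ : (r σ - 1) * (r σ - 1) = 0) : r σ = 1 := by
  set M := (r σ).map φ with hM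
  have hsq : ∀ u : Fin 2 → K, M *ᵥ (M *ᵥ u) - (M *ᵥ u + M *ᵥ u) + u = 0 := by
    intro u
    have e : (M - 1) * (M - 1) = 0 := by
      have := congrArg φ.mapMatrix hσ
      rwa [map_mul, map_sub, map_one, map_zero] at this
    have := congrArg (fun A : Matrix (Fin 2) (Fin 2) K => A *ᵥ u) e
    simp only [← mulVec_mulVec, sub_mulVec, one_mulVec, mulVec_sub, zero_mulVec] at this
    rw [← this]; abel
  by_cases hσG : σ ∈ G
  · have key : ∀ u : Fin 2 → K, u ≠ 0 → Eig M u → M *ᵥ u = u := by
      rintro u hu ⟨a, ha⟩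
      have := hsq u
      rw [ha, mulVec_smul, ha, smul_smul, ← add_smul, ← sub_smul] at this
      nth_rw 2 [← one_smul K u] at this
      rw [← add_smul] at this
      have e : (a - 1) ^ 2 = 0 := by
        linear_combination (smul_eq_zero.mp this).resolve_right hu
      rw [ha, sub_eq_zero.mp (pow_eq_zero_iff two_ne_zero |>.mp e), one_smul]
    have hv : v ≠ 0 := fun e => hb.indep (by simp [det2, e])
    have hv' : v' ≠ 0 := fun e => hb.indep (by simp [det2, e])
    have : M = 1 := eq_of_mulVec_eq hb.indep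
      (by rw [one_mulVec]; exact key v hv (hb.eig σ hσG))
      (by rw [one_mulVec]; exact key v' hv' (hb.eig' σ hσG))
    exact Matrix.map_injective φ.injective
      (this.trans (Matrix.map_one _ φ.map_zero φ.map_one).symm)
  · exfalso
    obtain ⟨⟨b, hbv⟩, b', hbv'⟩ := hb.swap σ hσG
    have := hsq v
    rw [hbv, mulVec_smul, hbv', smul_smul] at this
    have e : (b * b' + 1) • v + (-(2 * b)) • v' = 0 := by
      rw [← this, add_smul, one_smul, neg_smul, two_mul, add_smul]; abel
    obtain ⟨e1, e2⟩ := indep_of_det2 hb.indep e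
    have hb0 : b = 0 := by
      have h2K : (2 : K) ≠ 0 := by
        rw [← map_ofNat φ 2]; exact (map_ne_zero φ).mpr h2
      exact (mul_eq_zero.mp (neg_eq_zero.mp e2)).resolve_left h2K
    simp [hb0] at e1

/-- There are no elements of order the characteristic. -/
lemma BadPair.pow_char (hb : BadPair φ r G v v') (h2 : (2 : F) ≠ 0) (p : ℕ) [Fact p.Prime]
    [CharP F p] {σ : Γ} (hσ : r σ ^ p = 1) : r σ = 1 := by
  apply hb.eq_one_of_sq h2
  have hnil : IsNilpotent (r σ - 1) :=
    ⟨p, by rw [sub_pow_char_of_commute p (Commute.one_right _), hσ, one_pow, sub_self]⟩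
  set N := r σ - 1
  have ht : N.trace = 0 := (Matrix.isNilpotent_trace_of_isNilpotent hnil).eq_zero
  have hd : N.det = 0 := by
    obtain ⟨k, hk⟩ := hnil
    have := congrArg Matrix.det hk
    rw [det_pow, det_zero] at this
    exact eq_zero_of_pow_eq_zero this
  rw [trace_fin_two] at ht
  rw [det_fin_two] at hd
  ext i j
  fin_cases i <;> fin_cases j <;> simp [mul_apply, Fin.sum_univ_two]
  · linear_combination N 0 0 * ht - hd
  · linear_combination N 0 1 * ht
  · linear_combination N 1 0 * ht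
  · linear_combination N 1 1 * ht - hd

/-- A 2-group image with a single index two subgroup is impossible. -/
theorem false_of_two_group_of_index [Finite F] {r : Γ →* Matrix (Fin 2) (Fin 2) F} {G : Subgroup Γ}
    (hG : G.index = 2) (h2 : (2 : F) ≠ 0)
    {c : Γ} (hcc : r c * r c = 1) (hdc : (r c).det = -1)
    (hirr : ∀ w : Fin 2 → F, w ≠ 0 → ∃ g, ¬ Eig (r g) w)
    (huniq : ∀ U : Subgroup Γ, U.index = 2 → (∀ g, r g = 1 → g ∈ U) → U = G)
    (hord : ∀ g, ∃ k : ℕ, r g ^ (2 ^ k) = 1) : False := by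
  classical
  obtain ⟨g₀, hg₀⟩ : ∃ g₀, g₀ ∉ G := by
    by_contra hcon
    push Not at hcon
    have := hG
    rw [(Subgroup.eq_top_iff' G).mpr hcon, Subgroup.index_top] at this
    omega
  let rU : Γ →* (Matrix (Fin 2) (Fin 2) F)ˣ := r.toHomUnits
  let H := rU.range
  have hH : IsPGroup 2 H := by
    rintro ⟨x, g, rfl⟩
    obtain ⟨k, hk⟩ := hord g
    exact ⟨k, Subtype.ext (Units.ext (by simpa [rU] using hk))⟩
  set x : H := rU.rangeRestrict g₀
  by_cases hx : Subgroup.zpowers x = ⊤
  · obtain ⟨w, hw, hfix, hline⟩ := exists_fixed_line h2 hcc hdc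
    obtain ⟨g, hg⟩ := hirr w hw
    apply hg
    have hcomm : rU.rangeRestrict g * rU.rangeRestrict c
        = rU.rangeRestrict c * rU.rangeRestrict g := by
      obtain ⟨i, hi⟩ := Subgroup.mem_zpowers_iff.mp (hx ▸ Subgroup.mem_top (rU.rangeRestrict g))
      obtain ⟨j, hj⟩ := Subgroup.mem_zpowers_iff.mp (hx ▸ Subgroup.mem_top (rU.rangeRestrict c))
      rw [← hi, ← hj, ← zpow_add, ← zpow_add, add_comm]
    have hcomm' : r g * r c = r c * r g := by
      simpa [rU] using congrArg (fun y : H => Units.val (y : (Matrix (Fin 2) (Fin 2) F)ˣ)) hcomm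
    obtain ⟨t, ht⟩ := hline (r g *ᵥ w) (by rw [mulVec_mulVec, ← hcomm', ← mulVec_mulVec, hfix])
    exact ⟨t, ht⟩
  · obtain ⟨m, hm⟩ := IsPGroup.iff_card.mp hH
    obtain ⟨n, hn⟩ := IsPGroup.iff_card.mp (hH.to_subgroup (Subgroup.zpowers x))
    have hnm : n < m := by
      rw [← Nat.pow_lt_pow_iff_right (a := 2) (by norm_num), ← hn, ← hm]
      refine lt_of_le_of_ne (Nat.le_of_dvd Nat.card_pos (Subgroup.card_subgroup_dvd_card _))
        fun e => hx (Subgroup.eq_top_of_card_eq _ e)
    have : Fact (Nat.Prime 2) := ⟨Nat.prime_two⟩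
    obtain ⟨J, hJ, hle⟩ := Sylow.exists_subgroup_card_pow_prime_le 2
      (m := m - 1) (by rw [hm]; exact pow_dvd_pow 2 (Nat.sub_le m 1)) _ hn (by omega)
    have hJ2 : J.index = 2 := by
      have h := J.card_mul_index
      rw [hJ, hm, show 2 ^ m = 2 ^ (m - 1) * 2 by
        rw [← pow_succ, Nat.sub_add_cancel (by omega)]] at h
      exact Nat.eq_of_mul_eq_mul_left (by positivity) h
    have hU := huniq (J.comap rU.rangeRestrict)
      (by rw [Subgroup.index_comap_of_surjective _ rU.rangeRestrict_surjective, hJ2]) fun g hg => by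
        have : rU.rangeRestrict g = 1 := Subtype.ext (Units.ext (by simpa [rU] using hg))
        rw [Subgroup.mem_comap, this]
        exact J.one_mem
    exact hg₀ (hU ▸ (Subgroup.mem_comap.mpr (hle (Subgroup.mem_zpowers x))))

/-- A bad pair is impossible if the image is a 2-group with a unique index two subgroup. -/
theorem BadPair.false_of_two_group [Finite F] (hb : BadPair φ r G v v') (h2 : (2 : F) ≠ 0)
    {c : Γ} (hcc : r c * r c = 1) (hdc : (r c).det = -1)
    (hirr : ∀ w : Fin 2 → F, w ≠ 0 → ∃ g, ¬ Eig (r g) w)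
    (huniq : ∀ U : Subgroup Γ, U.index = 2 → (∀ g, r g = 1 → g ∈ U) → U = G)
    (hord : ∀ g, ∃ k : ℕ, r g ^ (2 ^ k) = 1) : False :=
  false_of_two_group_of_index hb.index h2 hcc hdc hirr huniq hord

end Fermat.Agent.TWHyp
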