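import Fermat.Agent.TWHyp.Core
import Fermat.Agent.GaloisBasics.Minkowski
import Fermat.Agent.LocalInertia.Corollaries
import Fermat.Agent.LocalInertia.Cyclotomic
import Fermat.Agent.Oddness.Det

/-!
# Irreducibility on index two subgroups for `p = 3, 5`

An irreducible representation over `ZMod p`, `p = 3` or `5`, with cyclotomic determinant and
unipotent inertia away from `p` stays irreducible on every index two subgroup, over every field
extension (`exists_not_eig_of_index_two`). Otherwise inertia away from `p` would act trivially, so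
only one index two subgroup contains the kernel, and the image would be a 2-group, which is
impossible.
-/

set_option autoImplicit false

open Matrix
open scoped Pointwise
open Fermat.Agent.GaloisBasics

namespace Fermat.Agent.TWHyp

/-- The hypotheses on a matrix representation `r` of `Gal(Q̄/Q)` over `ZMod p`. -/
structure IsTWRep (p : ℕ) [Fact p.Prime] (r : GalQ →* Matrix (Fin 2) (Fin 2) (ZMod p)) : Prop where
  finiteLevel : ∃ L : IntermediateField ℚ Qbar, FiniteDimensional ℚ L ∧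
    ∀ σ : GalQ, (∀ x ∈ L, σ x = x) → r σ = 1
  det_cyclotomic : ∀ (σ : GalQ) (a : ℕ), (∀ μ : Qbar, μ ^ p = 1 → σ μ = μ ^ a) →
    (r σ).det = (a : ZMod p)
  unipotent : ∀ q : ℕ, q.Prime → q ≠ p → ∀ A : ValuationSubring Qbar, A.LiesOverPrime q →
    ∀ σ ∈ A.inertiaSubgroupIn ℚ, (r σ - 1) * (r σ - 1) = 0
  irreducible : ∀ w : Fin 2 → ZMod p, w ≠ 0 → ∃ σ, ¬ Eig (r σ) w

lemma xor_sq_five : ∀ x : ZMod 5, x ≠ 0 → Xor ((x * 2) ^ 2 = 1) (x ^ 2 = 1) := by decide

lemma neg_one_sq_five : (-1 : ZMod 5) ^ 2 = 1 := by decide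

variable {p : ℕ} [Fact p.Prime] {r : GalQ →* Matrix (Fin 2) (Fin 2) (ZMod p)}

/-- `2` is nonzero in `ZMod p` for `p ≠ 2`. -/
lemma two_ne_zero_of_ne_two (hp2 : p ≠ 2) : (2 : ZMod p) ≠ 0 := by
  intro h
  have h' : ((2 : ℕ) : ZMod p) = 0 := by exact_mod_cast h
  rw [ZMod.natCast_eq_zero_iff] at h'
  exact hp2 ((Nat.prime_dvd_prime_iff_eq Fact.out Nat.prime_two).mp h')

/-- Complex conjugation is an involution of determinant `-1`. -/
lemma IsTWRep.conj_sq (h : IsTWRep p r) :
    r complexConjugation * r complexConjugation = 1 ∧ (r complexConjugation).det = -1 := by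
  refine ⟨by rw [← map_mul, complexConjugation_mul_self, map_one], ?_⟩
  have hp : p ≠ 0 := (Fact.out : p.Prime).ne_zero
  rw [h.det_cyclotomic _ (p - 1) fun μ hμ => Oddness.algEquiv_involution_apply_pow_eq
    complexConjugation_mul_self Oddness.complexConjugation_ne_one hp hμ]
  rw [Nat.cast_sub (Nat.one_le_iff_ne_zero.mpr hp), ZMod.natCast_self, Nat.cast_one, zero_sub]

/-- The image has no element of order `p`. -/
def NoOrderP (p : ℕ) (r : GalQ →* Matrix (Fin 2) (Fin 2) (ZMod p)) : Prop :=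
  ∀ σ, r σ ^ p = 1 → r σ = 1

/-- If the image has no element of order `p`, all orders in it are prime to `p`. -/
lemma orderOf_coprime (hno : NoOrderP p r) (σ : GalQ) :
    (orderOf (r.toHomUnits σ)).Coprime p := by
  refine ((Nat.Prime.coprime_iff_not_dvd Fact.out).mpr fun ⟨d, hd⟩ => ?_).symm
  set u := r.toHomUnits σ
  have hpos : 0 < orderOf u := orderOf_pos u
  have h1 : r (σ ^ d) ^ p = 1 := by
    have := congrArg Units.val (pow_orderOf_eq_one u)
    rw [hd, Units.val_pow_eq_pow_val, Units.val_one] at this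
    rw [← map_pow, ← pow_mul, mul_comm d p, map_pow]
    exact this
  have h2 : u ^ d = 1 := Units.ext (by
    rw [Units.val_pow_eq_pow_val, Units.val_one]
    have := hno _ h1
    rwa [map_pow] at this)
  have hd0 : 0 < d := Nat.pos_of_ne_zero fun e => by rw [e, mul_zero] at hd; omega
  have := Nat.le_of_dvd hd0 (orderOf_dvd_of_pow_eq_one h2)
  nlinarith [(Fact.out : p.Prime).two_le]

/-- At most one index two subgroup contains the kernel. -/
lemma unique_index_two (h : IsTWRep p r) (hno : NoOrderP p r)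
    (hunr : ∀ q : ℕ, q.Prime → q ≠ p → ∀ A : ValuationSubring Qbar, A.LiesOverPrime q →
      ∀ σ ∈ A.inertiaSubgroupIn ℚ, r σ = 1)
    {U₁ U₂ : Subgroup GalQ} (h₁ : U₁.index = 2) (h₂ : U₂.index = 2)
    (hk₁ : ∀ g, r g = 1 → g ∈ U₁) (hk₂ : ∀ g, r g = 1 → g ∈ U₂) : U₁ = U₂ := by
  have hp : p.Prime := Fact.out
  obtain ⟨A₀, hA₀⟩ := exists_liesOverPrime hp
  obtain ⟨L, hL, hLr⟩ := h.finiteLevel
  obtain ⟨σ₀, -, hgen, -⟩ := LocalInertia.exists_inertia_image_generator hA₀ hp r.toHomUnits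
    ⟨L, hL, fun σ hσ => Units.ext (hLr σ hσ)⟩ fun σ _ => orderOf_coprime hno σ
  have main : ∀ U : Subgroup GalQ, U.Normal → (∀ g, r g = 1 → g ∈ U) → σ₀ ∈ U → U = ⊤ := by
    intro U hN hk hσ₀
    have h0 : A₀.inertiaSubgroupIn ℚ ≤ U := by
      intro σ hσ
      obtain ⟨j, hj⟩ := hgen σ hσ
      have hmem : (σ₀ ^ j)⁻¹ * σ ∈ U := hk _ (by
        have : r.toHomUnits ((σ₀ ^ j)⁻¹ * σ) = 1 := by
          rw [map_mul, map_inv, map_pow, hj, inv_mul_cancel]
        exact congrArg Units.val this)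
      simpa using U.mul_mem (U.pow_mem hσ₀ j) hmem
    refine eq_top_of_inertia_le U L (fun σ hσ => hk σ (hLr σ ?_)) fun q hq A hA σ hσ => ?_
    · exact (IntermediateField.mem_fixingSubgroup_iff L σ).mp hσ
    · by_cases hqp : q = p
      · subst hqp
        obtain ⟨g, rfl⟩ := exists_smul_eq hA₀ hA hq
        have hmem : g⁻¹ * σ * g ∈ A₀.inertiaSubgroupIn ℚ := by
          rw [← inertiaSubgroupIn_smul_iff (g⁻¹ * σ * g) g]
          simpa [mul_assoc] using hσ
        simpa [mul_assoc] using hN.conj_mem _ (h0 hmem) g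
      · exact hk σ (hunr q hq hqp A hA σ hσ)
  have hne : ∀ {U : Subgroup GalQ}, U.index = 2 → U ≠ ⊤ := fun hU e => by
    rw [e, Subgroup.index_top] at hU; omega
  by_cases hs₁ : σ₀ ∈ U₁
  · exact absurd (main U₁ (Subgroup.normal_of_index_eq_two h₁) hk₁ hs₁) (hne h₁)
  by_cases hs₂ : σ₀ ∈ U₂
  · exact absurd (main U₂ (Subgroup.normal_of_index_eq_two h₂) hk₂ hs₂) (hne h₂)
  -- the third subgroup
  let U₃ : Subgroup GalQ :=
    { carrier := {σ | σ ∈ U₁ ↔ σ ∈ U₂}
      one_mem' := by simp [one_mem]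
      mul_mem' := fun {a b} ha hb => by
        simp only [Set.mem_ofPred_eq] at ha hb ⊢
        rw [Subgroup.mul_mem_iff_of_index_two h₁, Subgroup.mul_mem_iff_of_index_two h₂, ha, hb]
      inv_mem' := fun {a} ha => by simpa using ha }
  have hN₃ : U₃.Normal := ⟨fun n hn g => by
    change g * n * g⁻¹ ∈ U₁ ↔ g * n * g⁻¹ ∈ U₂
    have hn' : n ∈ U₁ ↔ n ∈ U₂ := hn
    rw [Subgroup.mul_mem_iff_of_index_two h₁, Subgroup.mul_mem_iff_of_index_two h₁,
      Subgroup.mul_mem_iff_of_index_two h₂, Subgroup.mul_mem_iff_of_index_two h₂,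
      inv_mem_iff, inv_mem_iff]
    tauto⟩
  have htop := main U₃ hN₃ (fun g hg => iff_of_true (hk₁ g hg) (hk₂ g hg))
    (iff_of_false hs₁ hs₂)
  ext σ
  have hmem : σ ∈ U₃ := htop.symm ▸ Subgroup.mem_top σ
  exact hmem

lemma card_GL_zmod_three : Nat.card (GL (Fin 2) (ZMod 3)) = 48 := by
  rw [Matrix.card_GL_field]
  simp [Fin.prod_univ_two, ZMod.card]

variable {K : Type*} [Field K] {φ : ZMod p →+* K} {G : Subgroup GalQ} {v v' : Fin 2 → K}

/-- For `p = 3`, an image without elements of order `3` is a 2-group. -/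
lemma two_power_three [Fact (Nat.Prime 3)] {r : GalQ →* Matrix (Fin 2) (Fin 2) (ZMod 3)}
    (hno : NoOrderP 3 r) (σ : GalQ) : ∃ k : ℕ, r σ ^ (2 ^ k) = 1 := by
  refine ⟨4, ?_⟩
  have h := congrArg Units.val (pow_card_eq_one' (x := r.toHomUnits σ))
  rw [card_GL_zmod_three, Units.val_pow_eq_pow_val, Units.val_one] at h
  have h' : r (σ ^ 16) ^ 3 = 1 := by
    rw [map_pow, ← pow_mul]; exact h
  rw [show 2 ^ 4 = 16 from rfl, ← map_pow]
  exact hno _ h'

/-- For `p = 5`, the image of a bad pair with a unique index two subgroup is a 2-group. -/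
lemma two_power_five [Fact (Nat.Prime 5)] {r : GalQ →* Matrix (Fin 2) (Fin 2) (ZMod 5)}
    {φ : ZMod 5 →+* K} (h : IsTWRep 5 r) (hb : BadPair φ r G v v')
    (huniq : ∀ U : Subgroup GalQ, U.index = 2 → (∀ g, r g = 1 → g ∈ U) → U = G)
    (σ : GalQ) : ∃ k : ℕ, r σ ^ (2 ^ k) = 1 := by
  obtain ⟨hcc, hdc⟩ := h.conj_sq
  have h2 : (2 : ZMod 5) ≠ 0 := two_ne_zero_of_ne_two (by norm_num)
  obtain ⟨A, hA⟩ := exists_liesOverPrime (q := 5) Fact.out
  obtain ⟨τ, -, hτ⟩ := LocalInertia.exists_inertia_pow_on_rootsOfUnity hA Fact.out 1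
    (a := 2) (by norm_num)
  have hdτ : (r τ).det = 2 := by
    simpa using h.det_cyclotomic τ 2 fun μ hμ => hτ μ (by simpa using hμ)
  let d : GalQ →* ZMod 5 := (Matrix.detMonoidHom.comp r)
  have hd0 : ∀ g, d g ≠ 0 := fun g e => by
    have : d g * d g⁻¹ = 1 := by rw [← map_mul, mul_inv_cancel, map_one]
    rw [e, zero_mul] at this
    exact zero_ne_one this
  let U : Subgroup GalQ := MonoidHom.ker ((powMonoidHom 2).comp d)
  have hUmem : ∀ g, g ∈ U ↔ (r g).det ^ 2 = 1 := fun g => Iff.rfl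
  have hU2 : U.index = 2 := by
    rw [Subgroup.index_eq_two_iff]
    refine ⟨τ, fun b => ?_⟩
    rw [hUmem, hUmem, map_mul, det_mul, hdτ]
    exact xor_sq_five _ (hd0 b)
  obtain rfl : U = G := huniq U hU2 fun g hg => by rw [hUmem, hg, det_one, one_pow]
  have hcG : complexConjugation ∈ U := by rw [hUmem, hdc]; exact neg_one_sq_five
  have hv : v ≠ 0 := fun e => hb.indep (by simp [det2, e])
  have hv' : v' ≠ 0 := fun e => hb.indep (by simp [det2, e])
  obtain ⟨w, hw, t, ht, rfl⟩ := rational_of_eig φ h2 hcc hdc hv (hb.eig _ hcG)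
  obtain ⟨w', hw', t', ht', rfl⟩ := rational_of_eig φ h2 hcc hdc hv' (hb.eig' _ hcG)
  have hww : det2 w w' ≠ 0 := fun e => hb.indep (by
    have := congrArg φ e
    simp only [det2, map_sub, map_mul, map_zero] at this
    simp only [det2, Pi.smul_apply, Function.comp_apply, smul_eq_mul]
    linear_combination t * t' * this)
  have hpow : ∀ g ∈ U, r g ^ 4 = 1 := by
    intro g hg
    have key : ∀ u : Fin 2 → ZMod 5, u ≠ 0 → Eig (r g) u → (r g ^ 4) *ᵥ u = u := by
      rintro u hu ⟨a, ha⟩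
      have ha0 : a ≠ 0 := by
        intro e
        apply hd0 g
        rw [e, zero_smul] at ha
        exact exists_mulVec_eq_zero_iff.mp ⟨u, hu, ha⟩
      have e : (r g ^ 4) *ᵥ u = (a * a * a * a) • u := by
        simp only [pow_succ, pow_zero, one_mul, ← mulVec_mulVec, ha, mulVec_smul, smul_smul,
          mul_assoc]
      rw [e, show a * a * a * a = a ^ 4 by ring, ZMod.pow_card_sub_one_eq_one ha0, one_smul]
    refine eq_of_mulVec_eq hww ?_ ?_ <;> rw [one_mulVec]
    · exact key w hw (eig_of_map φ hw ((eig_smul_iff ht).mp (hb.eig g hg)))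
    · exact key w' hw' (eig_of_map φ hw' ((eig_smul_iff ht').mp (hb.eig' g hg)))
  refine ⟨3, ?_⟩
  rw [show 2 ^ 3 = 2 * 4 from rfl, pow_mul, ← map_pow]
  exact hpow _ (Subgroup.sq_mem_of_index_two hU2 σ)

/-- For `p = 3, 5`: an irreducible representation with cyclotomic determinant and unipotent
inertia away from `p` has no eigenvector on an index two subgroup, over any field. -/
theorem exists_not_eig_of_index_two (hp : p = 3 ∨ p = 5) (h : IsTWRep p r) (φ : ZMod p →+* K)
    (G : Subgroup GalQ) (hG : G.index = 2) {v : Fin 2 → K} (hv : v ≠ 0) :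
    ∃ g ∈ G, ¬ Eig ((r g).map φ) v := by
  by_contra hcon
  push Not at hcon
  have h2 : (2 : ZMod p) ≠ 0 := two_ne_zero_of_ne_two (by omega)
  obtain ⟨hcc, hdc⟩ := h.conj_sq
  have habs := abs_irreducible φ h2 r hcc hdc h.irreducible
  obtain ⟨v', hb⟩ := BadPair.exists_of_eig φ r hG (habs (v := ·)) hv hcon
  have hno : NoOrderP p r := fun σ hσ => hb.pow_char h2 p hσ
  have huniq : ∀ U : Subgroup GalQ, U.index = 2 → (∀ g, r g = 1 → g ∈ U) → U = G :=
    fun U hU hk => unique_index_two h hno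
      (fun q hq hqp A hA σ hσ => hb.eq_one_of_sq h2 (h.unipotent q hq hqp A hA σ hσ))
      hU hG hk (fun g hg => hb.ker_le (habs (v := ·)) hg)
  refine hb.false_of_two_group h2 hcc hdc h.irreducible huniq ?_
  rcases hp with rfl | rfl
  · exact two_power_three hno
  · exact two_power_five h hb huniq

end Fermat.Agent.TWHyp
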