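import Fermat.Agent.TWHyp.Curve

/-!
# The mod 3 representation of a semistable curve is surjective when it is irreducible

The image contains an element of order `3`, as it cannot be a 2-group; two conjugate unipotent
subgroups then generate `SL₂(𝔽₃)`, and complex conjugation supplies determinant `-1`.
-/

set_option autoImplicit false

open Matrix
open Fermat.Agent.GaloisBasics

namespace Fermat.Agent.TWHyp

variable [Fact (Nat.Prime 3)] {r : GalQ →* Matrix (Fin 2) (Fin 2) (ZMod 3)}

/-- Upper transvection. -/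
def upperT (t : ZMod 3) : Matrix (Fin 2) (Fin 2) (ZMod 3) := !![1, t; 0, 1]

/-- Lower transvection. -/
def lowerT (t : ZMod 3) : Matrix (Fin 2) (Fin 2) (ZMod 3) := !![1, 0; t, 1]

lemma upperT_mul (s t : ZMod 3) : upperT s * upperT t = upperT (s + t) := by
  ext i j; fin_cases i <;> fin_cases j <;> simp [upperT, mul_apply, Fin.sum_univ_two, add_comm]

lemma lowerT_mul (s t : ZMod 3) : lowerT s * lowerT t = lowerT (s + t) := by
  ext i j; fin_cases i <;> fin_cases j <;> simp [lowerT, mul_apply, Fin.sum_univ_two]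

variable {S : Submonoid (Matrix (Fin 2) (Fin 2) (ZMod 3))}

lemma upperT_mem {x : ZMod 3} (hx : x ≠ 0) (h : upperT x ∈ S) (t : ZMod 3) : upperT t ∈ S := by
  have hk : ∀ k : ℕ, upperT ((k : ZMod 3) * x) ∈ S := by
    intro k
    induction k with
    | zero => simpa [upperT, one_fin_two] using S.one_mem
    | succ k ih =>
      rw [Nat.cast_succ, add_one_mul, ← upperT_mul]
      exact S.mul_mem ih h
  simpa [ZMod.natCast_zmod_val, hx] using hk (t / x).val

lemma lowerT_mem {x : ZMod 3} (hx : x ≠ 0) (h : lowerT x ∈ S) (t : ZMod 3) : lowerT t ∈ S := by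
  have hk : ∀ k : ℕ, lowerT ((k : ZMod 3) * x) ∈ S := by
    intro k
    induction k with
    | zero => simpa [lowerT, one_fin_two] using S.one_mem
    | succ k ih =>
      rw [Nat.cast_succ, add_one_mul, ← lowerT_mul]
      exact S.mul_mem ih h
  simpa [ZMod.natCast_zmod_val, hx] using hk (t / x).val

/-- The two unipotent subgroups generate `SL₂(𝔽₃)`. -/
lemma mem_of_det_one (hU : ∀ t, upperT t ∈ S) (hL : ∀ t, lowerT t ∈ S)
    {M : Matrix (Fin 2) (Fin 2) (ZMod 3)} (hM : M.det = 1) : M ∈ S := by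
  have key : ∀ M : Matrix (Fin 2) (Fin 2) (ZMod 3), M.det = 1 → M 1 0 ≠ 0 → M ∈ S := by
    intro M hM hc
    rw [det_fin_two] at hM
    have : M = upperT ((M 0 0 - 1) / M 1 0) * lowerT (M 1 0) *
        upperT ((M 1 1 - 1) / M 1 0) := by
      ext i j
      fin_cases i <;> fin_cases j <;> simp [upperT, lowerT, mul_apply, Fin.sum_univ_two] <;>
        field_simp <;> first | ring1 | linear_combination -hM
    rw [this]
    exact S.mul_mem (S.mul_mem (hU _) (hL _)) (hU _)
  by_cases hc : M 1 0 = 0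
  · have hd : (M * lowerT 1).det = 1 := by rw [det_mul, hM]; simp [lowerT, det_fin_two]
    have h11 : M 1 1 ≠ 0 := fun e => by simp [det_fin_two, hc, e] at hM
    have := key _ hd (by simpa [lowerT, mul_apply, Fin.sum_univ_two, hc] using h11)
    have e : M = M * lowerT 1 * lowerT (-1) := by
      rw [mul_assoc, lowerT_mul, add_neg_cancel]
      simp [lowerT, ← one_fin_two]
    rw [e]
    exact S.mul_mem this (hL _)
  · exact key M hM hc

/-- A unipotent `≠ 1` fixing exactly the first coordinate line is an upper transvection. -/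
lemma eq_upperT {N : Matrix (Fin 2) (Fin 2) (ZMod 3)} (h : (N - 1) * (N - 1) = 0)
    (hN : N 1 0 = 0) : N = upperT (N 0 1) := by
  have h00 := congrFun (congrFun h 0) 0
  have h11 := congrFun (congrFun h 1) 1
  simp [mul_apply, Fin.sum_univ_two, hN] at h00 h11
  ext i j
  fin_cases i <;> fin_cases j <;> simp [upperT, hN]
  · exact sub_eq_zero.mp h00
  · exact sub_eq_zero.mp h11

lemma eq_lowerT {N : Matrix (Fin 2) (Fin 2) (ZMod 3)} (h : (N - 1) * (N - 1) = 0)
    (hN : N 0 1 = 0) : N = lowerT (N 1 0) := by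
  have h00 := congrFun (congrFun h 0) 0
  have h11 := congrFun (congrFun h 1) 1
  simp [mul_apply, Fin.sum_univ_two, hN] at h00 h11
  ext i j
  fin_cases i <;> fin_cases j <;> simp [lowerT, hN]
  · exact sub_eq_zero.mp h00
  · exact sub_eq_zero.mp h11

/-- The image contains an element of order three. -/
lemma exists_order_three (h : IsTWRep 3 r) : ∃ σ, r σ ^ 3 = 1 ∧ r σ ≠ 1 := by
  by_contra hcon
  push Not at hcon
  have hno : NoOrderP 3 r := hcon
  obtain ⟨hcc, hdc⟩ := h.conj_sq
  have hunr : ∀ q : ℕ, q.Prime → q ≠ 3 → ∀ A : ValuationSubring Qbar, A.LiesOverPrime q →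
      ∀ σ ∈ A.inertiaSubgroupIn ℚ, r σ = 1 := fun q hq hq3 A hA σ hσ => hno σ (by
    have hu := h.unipotent q hq hq3 A hA σ hσ
    have e : (r σ - 1) ^ 3 = 0 := by rw [pow_succ, sq, hu, zero_mul]
    rw [sub_pow_char_of_commute 3 (Commute.one_right _), one_pow, sub_eq_zero] at e
    exact e)
  let d : GalQ →* ZMod 3 := Matrix.detMonoidHom.comp r
  have hmem : ∀ g, g ∈ d.ker ↔ (r g).det = 1 := fun g => Iff.rfl
  have h11 : (-1 : ZMod 3) ≠ 1 := fun e => two_ne_zero_of_ne_two (p := 3) (by norm_num)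
    (by linear_combination -e)
  have hpm : ∀ g, (r g).det = 1 ∨ (r g).det = -1 := fun g => by
    have hne : (r g).det ≠ 0 := fun e => by
      have : (r g).det * (r g⁻¹).det = 1 := by
        rw [← det_mul, ← map_mul, mul_inv_cancel, map_one, det_one]
      rw [e, zero_mul] at this
      exact zero_ne_one this
    exact mul_self_eq_one_iff.mp (by rw [← sq]; exact ZMod.pow_card_sub_one_eq_one hne)
  have hG : d.ker.index = 2 := by
    rw [Subgroup.index_eq_two_iff]
    refine ⟨complexConjugation, fun b => ?_⟩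
    rw [hmem, hmem, map_mul, det_mul, hdc]
    rcases hpm b with e | e <;> rw [e]
    · exact Or.inr ⟨rfl, by simpa using h11⟩
    · exact Or.inl ⟨by norm_num, h11⟩
  exact false_of_two_group_of_index hG (two_ne_zero_of_ne_two (by norm_num)) hcc hdc h.irreducible
    (fun U hU hk => unique_index_two h hno hunr hU hG hk fun g hg => by rw [hmem, hg, det_one])
    fun g => two_power_three hno g

/-- The image is all of `GL₂(𝔽₃)`. -/
theorem exists_eq_of_det_ne_zero (h : IsTWRep 3 r) {M : Matrix (Fin 2) (Fin 2) (ZMod 3)}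
    (hM : M.det ≠ 0) : ∃ σ, r σ = M := by
  obtain ⟨u, hu3, hu1⟩ := exists_order_three h
  obtain ⟨hcc, hdc⟩ := h.conj_sq
  set N := r u - 1 with hN
  have hN3 : N ^ 3 = 0 := by
    rw [hN, sub_pow_char_of_commute 3 (Commute.one_right _), hu3, one_pow, sub_self]
  have hd : N.det = 0 := by
    have := congrArg Matrix.det hN3
    rw [det_pow, det_zero] at this
    exact eq_zero_of_pow_eq_zero this
  have hN2 : N * N = 0 := by
    have ht : N.trace = 0 := (Matrix.isNilpotent_trace_of_isNilpotent ⟨3, hN3⟩).eq_zero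
    rw [trace_fin_two] at ht
    rw [det_fin_two] at hd
    ext i j
    fin_cases i <;> fin_cases j <;> simp [mul_apply, Fin.sum_univ_two]
    · linear_combination N 0 0 * ht - hd
    · linear_combination N 0 1 * ht
    · linear_combination N 1 0 * ht
    · linear_combination N 1 1 * ht - hd
  obtain ⟨w, hw, hker, hline⟩ :=
    exists_kernel (RingHom.id (ZMod 3)) (sub_ne_zero.mpr hu1) hd
  obtain ⟨g, hg⟩ := h.irreducible w hw
  set w' := r g *ᵥ w with hw'
  have hind : det2 w w' ≠ 0 := fun e => hg (exists_smul_of_det2_eq_zero hw e)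
  set P : Matrix (Fin 2) (Fin 2) (ZMod 3) := !![w 0, w' 0; w 1, w' 1] with hP
  have hPdet : IsUnit P.det := by
    have e : P.det = det2 w w' := by simp [hP, det_fin_two, det2]; ring
    rw [e]; exact isUnit_iff_ne_zero.mpr hind
  let S : Submonoid (Matrix (Fin 2) (Fin 2) (ZMod 3)) :=
    { carrier := {X | ∃ σ, r σ = P * X * P⁻¹}
      one_mem' := ⟨1, by rw [map_one, mul_one, Matrix.mul_nonsing_inv _ hPdet]⟩
      mul_mem' := fun {X Y} ⟨a, ha⟩ ⟨b, hb⟩ => ⟨a * b, by
        rw [map_mul, ha, hb]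
        simp only [mul_assoc]
        rw [← mul_assoc P⁻¹ P, Matrix.nonsing_inv_mul _ hPdet, one_mul]⟩ }
  have hPe : ∀ i, P *ᵥ Pi.single i 1 = ![w, w'] i := fun i => by
    funext j; fin_cases i <;> fin_cases j <;> simp [hP]
  -- the conjugate unipotents in the new coordinates
  have conv : ∀ (σ : GalQ), (r σ - 1) * (r σ - 1) = 0 →
      (P⁻¹ * r σ * P - 1) * (P⁻¹ * r σ * P - 1) = 0 := fun σ hσ => by
    have e : P⁻¹ * r σ * P - 1 = P⁻¹ * (r σ - 1) * P := by
      rw [mul_sub, sub_mul, mul_one, Matrix.nonsing_inv_mul _ hPdet]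
    rw [e, show P⁻¹ * (r σ - 1) * P * (P⁻¹ * (r σ - 1) * P)
      = P⁻¹ * ((r σ - 1) * (P * P⁻¹) * (r σ - 1)) * P by simp only [mul_assoc],
      Matrix.mul_nonsing_inv _ hPdet, mul_one, hσ, mul_zero, zero_mul]
  have hfix : ∀ (σ : GalQ) (i : Fin 2), r σ *ᵥ ![w, w'] i = ![w, w'] i →
      (P⁻¹ * r σ * P) *ᵥ Pi.single i 1 = Pi.single i 1 := fun σ i e => by
    rw [← mulVec_mulVec, ← mulVec_mulVec, hPe, e, ← hPe, mulVec_mulVec,
      Matrix.nonsing_inv_mul _ hPdet, one_mulVec]
  have hback : ∀ σ : GalQ, (P⁻¹ * r σ * P) ∈ S := fun σ => ⟨σ, by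
    simp only [mul_assoc]
    rw [Matrix.mul_nonsing_inv _ hPdet, mul_one, ← mul_assoc, Matrix.mul_nonsing_inv _ hPdet,
      one_mul]⟩
  have hne : ∀ σ : GalQ, r σ ≠ 1 → P⁻¹ * r σ * P ≠ 1 := fun σ hσ e => hσ (by
    have := congrArg (fun X => P * X * P⁻¹) e
    simp only [mul_assoc, Matrix.mul_nonsing_inv _ hPdet, mul_one] at this
    rwa [← mul_assoc, Matrix.mul_nonsing_inv _ hPdet, one_mul] at this)
  have hu_w : r u *ᵥ w = w := by
    rw [sub_mulVec, one_mulVec, sub_eq_zero] at hker; exact hker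
  set u' := g * u * g⁻¹
  have hru' : r u' - 1 = r g * N * r g⁻¹ := by
    rw [hN, mul_sub, sub_mul, mul_one, ← map_mul, ← map_mul, ← map_mul, mul_inv_cancel, map_one]
  have hu'2 : (r u' - 1) * (r u' - 1) = 0 := by
    rw [hru', show r g * N * r g⁻¹ * (r g * N * r g⁻¹)
      = r g * (N * (r g⁻¹ * r g) * N) * r g⁻¹ by simp only [mul_assoc],
      ← map_mul, inv_mul_cancel, map_one, mul_one, hN2, mul_zero, zero_mul]
  have hu'1 : r u' ≠ 1 := fun e => hu1 (by
    have e' : r (g⁻¹ * u' * g) = 1 := by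
      rw [map_mul, map_mul, e, mul_one, ← map_mul, inv_mul_cancel, map_one]
    rwa [show g⁻¹ * u' * g = u by simp only [u']; group] at e')
  have hu'w : r u' *ᵥ w' = w' := by
    rw [hw', mulVec_mulVec, ← map_mul, show g * u * g⁻¹ * g = g * u by group, map_mul,
      ← mulVec_mulVec, hu_w]
  have hX := eq_upperT (conv u hN2) (by
    simpa [Matrix.mulVec_single_one] using congrFun (hfix u 0 hu_w) 1)
  have hY := eq_lowerT (conv u' hu'2) (by
    simpa [Matrix.mulVec_single_one] using congrFun (hfix u' 1 hu'w) 0)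
  have hx0 : (P⁻¹ * r u * P) 0 1 ≠ 0 := fun e => hne u hu1 (by
    rw [hX, e]; simp [upperT, ← one_fin_two])
  have hy0 : (P⁻¹ * r u' * P) 1 0 ≠ 0 := fun e => hne u' hu'1 (by
    rw [hY, e]; simp [lowerT, ← one_fin_two])
  have hU := upperT_mem (S := S) hx0 (hX ▸ hback u)
  have hL := lowerT_mem (S := S) hy0 (hY ▸ hback u')
  have hSL : ∀ X : Matrix (Fin 2) (Fin 2) (ZMod 3), X.det = 1 → ∃ σ, r σ = X := fun X hX => by
    obtain ⟨σ, hσ⟩ := mem_of_det_one hU hL (M := P⁻¹ * X * P) (by
      rw [det_mul, det_mul, hX, mul_one, ← det_mul, Matrix.nonsing_inv_mul _ hPdet, det_one])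
    refine ⟨σ, hσ.trans ?_⟩
    simp only [mul_assoc]
    rw [Matrix.mul_nonsing_inv _ hPdet, mul_one, ← mul_assoc, Matrix.mul_nonsing_inv _ hPdet,
      one_mul]
  rcases mul_self_eq_one_iff.mp (show M.det * M.det = 1 by
    rw [← sq]; exact ZMod.pow_card_sub_one_eq_one hM) with hd1 | hd1
  · exact hSL M hd1
  · obtain ⟨σ, hσ⟩ := hSL (r complexConjugation * M) (by rw [det_mul, hdc, hd1]; ring)
    exact ⟨complexConjugation * σ, by rw [map_mul, hσ, ← mul_assoc, hcc, one_mul]⟩

end Fermat.Agent.TWHyp
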